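/-
IG-M [T3] (P-IGUSA, S28): the group ring `ℤ[ZMod p]`, its universal `p`-th root of unity, the
endomorphisms induced by multiplication on `ZMod p`, and the evaluation at a root of unity.
Elements fixed by all these endomorphisms evaluate to integers.
-/
import Mathlib

set_option autoImplicit false

noncomputable section

namespace Fermat.Agent.H44

/-- The group ring `ℤ[ZMod p]`. -/
abbrev CpRing (p : ℕ) : Type := AddMonoidAlgebra ℤ (ZMod p)

/-- The universal `p`-th root of unity `Z = [1]` in the group ring, as a unit. -/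
def cpZ (p : ℕ) : (CpRing p)ˣ where
  val := AddMonoidAlgebra.single (1 : ZMod p) 1
  inv := AddMonoidAlgebra.single (-1 : ZMod p) 1
  val_inv := by
    rw [AddMonoidAlgebra.single_mul_single, add_neg_cancel, one_mul]
    rfl
  inv_val := by
    rw [AddMonoidAlgebra.single_mul_single, neg_add_cancel, one_mul]
    rfl

theorem cpZ_pow_val (p : ℕ) (n : ℕ) :
    ((cpZ p ^ n : (CpRing p)ˣ) : CpRing p) = AddMonoidAlgebra.single ((n : ZMod p)) 1 := by
  rw [Units.val_pow_eq_pow_val]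
  show (AddMonoidAlgebra.single (1 : ZMod p) (1 : ℤ)) ^ n = _
  rw [AddMonoidAlgebra.single_pow, one_pow, nsmul_one]

theorem cpZ_pow_p (p : ℕ) : cpZ p ^ p = 1 := by
  apply Units.ext
  rw [cpZ_pow_val, ZMod.natCast_self]
  rfl

/-- The ring endomorphism of the group ring induced by `b ↦ a * b`. -/
def cpAut (p : ℕ) (a : ZMod p) : CpRing p →+* CpRing p :=
  AddMonoidAlgebra.mapDomainRingHom ℤ (AddMonoidHom.mulLeft a)

theorem cpAut_single (p : ℕ) (a b : ZMod p) (n : ℤ) :
    cpAut p a (AddMonoidAlgebra.single b n) = AddMonoidAlgebra.single (a * b) n := by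
  rw [cpAut, AddMonoidAlgebra.mapDomainRingHom_apply, AddMonoidAlgebra.mapDomain_single]
  rfl

theorem cpAut_cpZ_pow (p : ℕ) [NeZero p] (a b : ZMod p) :
    Units.map (cpAut p a : CpRing p →* CpRing p) (cpZ p ^ b.val) = cpZ p ^ (a * b).val := by
  apply Units.ext
  rw [Units.coe_map, cpZ_pow_val, cpZ_pow_val, ZMod.natCast_zmod_val, ZMod.natCast_zmod_val]
  exact cpAut_single p a b 1

theorem cpAut_coeff (p : ℕ) (a : (ZMod p)ˣ) (y : CpRing p) (b : ZMod p) :
    (cpAut p (a : ZMod p) y).coeff ((a : ZMod p) * b) = y.coeff b := by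
  rw [cpAut, AddMonoidAlgebra.mapDomainRingHom_apply]
  show Finsupp.mapDomain (fun x => (a : ZMod p) * x) y.coeff ((a : ZMod p) * b) = y.coeff b
  exact Finsupp.mapDomain_apply (fun x z h => Units.mul_right_inj a |>.mp h) _ _

/-- Evaluation of the group ring at a `p`-th root of unity of `ℂ`. -/
def cpEval (p : ℕ) (χ : Multiplicative (ZMod p) →* ℂˣ) : CpRing p →+* ℂ :=
  (AddMonoidAlgebra.lift ℤ ℂ (ZMod p) ((Units.coeHom ℂ).comp χ)).toRingHom

theorem cpEval_apply (p : ℕ) [NeZero p] (χ : Multiplicative (ZMod p) →* ℂˣ) (y : CpRing p) :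
    cpEval p χ y = ∑ b : ZMod p, (y.coeff b : ℂ) * (χ (Multiplicative.ofAdd b) : ℂ) := by
  show (AddMonoidAlgebra.lift ℤ ℂ (ZMod p) ((Units.coeHom ℂ).comp χ)) y = _
  rw [AddMonoidAlgebra.lift_apply, Finsupp.sum_fintype _ _ (fun i => by simp)]
  refine Finset.sum_congr rfl fun b _ => ?_
  simp [zsmul_eq_mul]

theorem cpEval_single (p : ℕ) [NeZero p] (χ : Multiplicative (ZMod p) →* ℂˣ) (b : ZMod p) :
    cpEval p χ (AddMonoidAlgebra.single b 1) = (χ (Multiplicative.ofAdd b) : ℂ) := by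
  show (AddMonoidAlgebra.lift ℤ ℂ (ZMod p) ((Units.coeHom ℂ).comp χ))
    (AddMonoidAlgebra.single b 1) = _
  rw [AddMonoidAlgebra.lift_single, one_smul]
  rfl

theorem sum_char_eq_zero (p : ℕ) [NeZero p] (χ : Multiplicative (ZMod p) →* ℂˣ)
    (hχ : χ (Multiplicative.ofAdd 1) ≠ 1) :
    ∑ b : ZMod p, (χ (Multiplicative.ofAdd b) : ℂ) = 0 := by
  have h1 : (χ (Multiplicative.ofAdd 1) : ℂ) * ∑ b : ZMod p, (χ (Multiplicative.ofAdd b) : ℂ)
      = ∑ b : ZMod p, (χ (Multiplicative.ofAdd b) : ℂ) := by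
    rw [Finset.mul_sum]
    rw [← Equiv.sum_comp (Equiv.addLeft (1 : ZMod p))
      (fun b => (χ (Multiplicative.ofAdd b) : ℂ))]
    refine Finset.sum_congr rfl fun b _ => ?_
    rw [Equiv.coe_addLeft, ofAdd_add, map_mul, Units.val_mul]
  have h2 : ((χ (Multiplicative.ofAdd 1) : ℂ) - 1) *
      ∑ b : ZMod p, (χ (Multiplicative.ofAdd b) : ℂ) = 0 := by
    rw [sub_mul, h1, one_mul, sub_self]
  rcases mul_eq_zero.mp h2 with h | h
  · exfalso
    apply hχ
    apply Units.ext
    rw [Units.val_one]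
    exact sub_eq_zero.mp h
  · exact h

/-- **Key lemma**: an element of the group ring `ℤ[ZMod p]` (`p` prime) fixed by all the
endomorphisms `b ↦ a * b`, `a` a unit, evaluates to an integer at any nontrivial character. -/
theorem cpEval_int_of_fixed (p : ℕ) [Fact p.Prime] (χ : Multiplicative (ZMod p) →* ℂˣ)
    (hχ : χ (Multiplicative.ofAdd 1) ≠ 1) (y : CpRing p)
    (hy : ∀ a : (ZMod p)ˣ, cpAut p (a : ZMod p) y = y) :
    ∃ m : ℤ, cpEval p χ y = (m : ℂ) := by
  have : NeZero p := ⟨(Fact.out : p.Prime).ne_zero⟩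
  have hconst : ∀ b : ZMod p, b ≠ 0 → y.coeff b = y.coeff 1 := by
    intro b hb
    have h := cpAut_coeff p (Units.mk0 b hb) y 1
    rw [hy (Units.mk0 b hb), Units.val_mk0, mul_one] at h
    exact h
  refine ⟨y.coeff 0 - y.coeff 1, ?_⟩
  rw [cpEval_apply]
  have hsum := sum_char_eq_zero p χ hχ
  have h0 : (χ (Multiplicative.ofAdd (0 : ZMod p)) : ℂ) = 1 := by
    rw [ofAdd_zero, map_one, Units.val_one]
  rw [← Finset.add_sum_erase _ _ (Finset.mem_univ (0 : ZMod p))] at hsum ⊢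
  rw [h0] at hsum ⊢
  have h1 : ∑ b ∈ Finset.univ.erase (0 : ZMod p),
      (y.coeff b : ℂ) * (χ (Multiplicative.ofAdd b) : ℂ)
      = (y.coeff 1 : ℂ) * ∑ b ∈ Finset.univ.erase (0 : ZMod p),
        (χ (Multiplicative.ofAdd b) : ℂ) := by
    rw [Finset.mul_sum]
    refine Finset.sum_congr rfl fun b hb => ?_
    rw [hconst b (Finset.ne_of_mem_erase hb)]
  rw [h1]
  have h2 : ∑ b ∈ Finset.univ.erase (0 : ZMod p), (χ (Multiplicative.ofAdd b) : ℂ) = -1 := by
    linear_combination hsum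
  rw [h2]
  push_cast
  ring

end Fermat.Agent.H44

end
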