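/-
IG-M [T3] (P-IGUSA, S28): formal integrality.  The coefficients of the symmetric polynomials in
the `p + 1` formal conjugates `j(t^{p²})`, `j(ζ^b t)` (and of the corresponding units) are
Laurent series with integer coefficients.  Galois-free proof through the group ring `ℤ[ZMod p]`.
-/
import Fermat.Agent.H44.IgM.GroupRing
import Fermat.Agent.H17.MDefs
import Fermat.Agent.H67.IgusaTransfer

set_option autoImplicit false

noncomputable section

open Polynomial ModularCurve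

namespace Fermat.Agent.H44

open Fermat.Agent.H17 Fermat.Agent.H27 Fermat.Agent.H67

section Abstract

variable {k k' : Type*} [CommRing k] [CommRing k'] {ι : Type*} [Fintype ι]

theorem symPhi_coeff_coeffMap (φ : k →+* k') (r : ι → LaurentSeries k)
    (r' : ι → LaurentSeries k') (h : ∀ x, coeffMap φ (r x) = r' x) (i : ℕ) :
    coeffMap φ ((symPhi r).coeff i) = (symPhi r').coeff i := by
  have e : (fun x => coeffMap φ (r x)) = r' := funext h
  rw [← Polynomial.coeff_map, symPhi_map, e]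

theorem symL_coeff_coeffMap (φ : k →+* k') (r u : ι → LaurentSeries k)
    (r' u' : ι → LaurentSeries k') (h : ∀ x, coeffMap φ (r x) = r' x)
    (h' : ∀ x, coeffMap φ (u x) = u' x) (i : ℕ) :
    coeffMap φ ((symL r u).coeff i) = (symL r' u').coeff i := by
  have e : (fun x => coeffMap φ (r x)) = r' := funext h
  have e' : (fun x => coeffMap φ (u x)) = u' := funext h'
  rw [← Polynomial.coeff_map, symL_map, e, e']

theorem symPhi_coeff_fixed (s : k →+* k) (σ : ι ≃ ι) (r : ι → LaurentSeries k)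
    (h : ∀ x, coeffMap s (r x) = r (σ x)) (i : ℕ) :
    coeffMap s ((symPhi r).coeff i) = (symPhi r).coeff i := by
  rw [symPhi_coeff_coeffMap s r (fun x => r (σ x)) h, symPhi_comp_equiv]

theorem symL_coeff_fixed (s : k →+* k) (σ : ι ≃ ι) (r u : ι → LaurentSeries k)
    (h : ∀ x, coeffMap s (r x) = r (σ x)) (h' : ∀ x, coeffMap s (u x) = u (σ x)) (i : ℕ) :
    coeffMap s ((symL r u).coeff i) = (symL r u).coeff i := by
  rw [symL_coeff_coeffMap s r u (fun x => r (σ x)) (fun x => u (σ x)) h h', symL_comp_equiv]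

end Abstract

/-- Multiplication by a unit of `ZMod p` on `OnePoint (ZMod p)` (fixing `∞`). -/
def opMul (p : ℕ) (a : (ZMod p)ˣ) : OnePoint (ZMod p) ≃ OnePoint (ZMod p) :=
  Equiv.optionCongr (Units.mulLeft a)

theorem opMul_infty (p : ℕ) (a : (ZMod p)ˣ) : opMul p a OnePoint.infty = OnePoint.infty := rfl

theorem opMul_some (p : ℕ) (a : (ZMod p)ˣ) (b : ZMod p) :
    opMul p a (b : OnePoint (ZMod p)) = (((a : ZMod p) * b : ZMod p) : OnePoint (ZMod p)) := rfl

theorem rFo_infty {k : Type*} [CommRing k] (p : ℕ) [NeZero p] (ζ : kˣ) :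
    rFo p ζ OnePoint.infty = rootInf k p := rfl

theorem rFo_some {k : Type*} [CommRing k] (p : ℕ) [NeZero p] (ζ : kˣ) (b : ZMod p) :
    rFo p ζ (b : OnePoint (ZMod p)) = rootFin (ζ ^ b.val) := rfl

theorem uFo_infty {k : Type*} [CommRing k] (p : ℕ) [NeZero p] (ζ : kˣ) :
    uFo p ζ OnePoint.infty = unitInf k p := rfl

theorem uFo_some {k : Type*} [CommRing k] (p : ℕ) [NeZero p] (ζ : kˣ) (b : ZMod p) :
    uFo p ζ (b : OnePoint (ZMod p)) = unitFin p (ζ ^ b.val) := rfl

theorem coeffMap_cpAut_rFo (p : ℕ) [NeZero p] (a : (ZMod p)ˣ) (x : OnePoint (ZMod p)) :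
    coeffMap (cpAut p (a : ZMod p)) (rFo p (cpZ p) x) = rFo p (cpZ p) (opMul p a x) := by
  induction x using OnePoint.rec with
  | infty => rw [opMul_infty, rFo_infty, coeffMap_rootInf]
  | coe b => rw [opMul_some, rFo_some, rFo_some, coeffMap_rootFin, cpAut_cpZ_pow]

theorem coeffMap_cpAut_uFo (p : ℕ) [NeZero p] (a : (ZMod p)ˣ) (x : OnePoint (ZMod p)) :
    coeffMap (cpAut p (a : ZMod p)) (uFo p (cpZ p) x) = uFo p (cpZ p) (opMul p a x) := by
  induction x using OnePoint.rec with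
  | infty => rw [opMul_infty, uFo_infty, coeffMap_unitInf]
  | coe b => rw [opMul_some, uFo_some, uFo_some, coeffMap_unitFin, cpAut_cpZ_pow]

/-- The character `b ↦ ζ ^ b` of `ZMod p` attached to a `p`-th root of unity. -/
def rootHom (p : ℕ) [NeZero p] (ζ : ℂˣ) (hζ : ζ ^ p = 1) : Multiplicative (ZMod p) →* ℂˣ where
  toFun g := ζ ^ (Multiplicative.toAdd g).val
  map_one' := by simp
  map_mul' a b := by
    rw [toAdd_mul, ZMod.val_add, ← pow_add]
    exact (pow_eq_pow_mod _ hζ).symm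

theorem rootHom_apply (p : ℕ) [NeZero p] (ζ : ℂˣ) (hζ : ζ ^ p = 1) (b : ZMod p) :
    rootHom p ζ hζ (Multiplicative.ofAdd b) = ζ ^ b.val := rfl

theorem cpEval_cpZ_pow (p : ℕ) [NeZero p] (ζ : ℂˣ) (hζ : ζ ^ p = 1) (b : ZMod p) :
    Units.map (cpEval p (rootHom p ζ hζ) : CpRing p →* ℂ) (cpZ p ^ b.val) = ζ ^ b.val := by
  apply Units.ext
  rw [Units.coe_map, cpZ_pow_val, ZMod.natCast_zmod_val]
  exact cpEval_single p _ b

theorem coeffMap_cpEval_rFo (p : ℕ) [NeZero p] (ζ : ℂˣ) (hζ : ζ ^ p = 1)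
    (x : OnePoint (ZMod p)) :
    coeffMap (cpEval p (rootHom p ζ hζ)) (rFo p (cpZ p) x) = rFo p ζ x := by
  induction x using OnePoint.rec with
  | infty => rw [rFo_infty, rFo_infty, coeffMap_rootInf]
  | coe b => rw [rFo_some, rFo_some, coeffMap_rootFin, cpEval_cpZ_pow]

theorem coeffMap_cpEval_uFo (p : ℕ) [NeZero p] (ζ : ℂˣ) (hζ : ζ ^ p = 1)
    (x : OnePoint (ZMod p)) :
    coeffMap (cpEval p (rootHom p ζ hζ)) (uFo p (cpZ p) x) = uFo p ζ x := by
  induction x using OnePoint.rec with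
  | infty => rw [uFo_infty, uFo_infty, coeffMap_unitInf]
  | coe b => rw [uFo_some, uFo_some, coeffMap_unitFin, cpEval_cpZ_pow]

/-- Integrality criterion: the image under `coeffMap ev` of a Laurent series over the group
ring which is fixed by all `coeffMap (cpAut a)` has integer coefficients. -/
theorem intCoeffs_of_fixed (p : ℕ) [Fact p.Prime] (χ : Multiplicative (ZMod p) →* ℂˣ)
    (hχ : χ (Multiplicative.ofAdd 1) ≠ 1) (c : LaurentSeries (CpRing p))
    (hc : ∀ a : (ZMod p)ˣ, coeffMap (cpAut p (a : ZMod p)) c = c) :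
    IntCoeffs (coeffMap (cpEval p χ) c) := by
  intro n
  rw [coeffMap_coeff]
  refine cpEval_int_of_fixed p χ hχ (c.coeff n) (fun a => ?_)
  have h := congrArg (fun z => z.coeff n) (hc a)
  simpa using h

/-- **IG-M [T3]: formal integrality.** -/
theorem formal_integrality (p : ℕ) [NeZero p] (hp : p.Prime) (ζ : ℂˣ)
    (hζ : IsPrimitiveRoot (ζ : ℂ) p) :
    (∀ k, IntCoeffs ((symPhi (rFo p ζ)).coeff k)) ∧
    (∀ k, IntCoeffs ((symPhi (uFo p ζ)).coeff k)) ∧
    (∀ k, IntCoeffs ((symL (rFo p ζ) (uFo p ζ)).coeff k)) := by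
  have : Fact p.Prime := ⟨hp⟩
  have hζp : ζ ^ p = 1 := by
    apply Units.ext
    rw [Units.val_pow_eq_pow_val, hζ.pow_eq_one, Units.val_one]
  have hχ : rootHom p ζ hζp (Multiplicative.ofAdd 1) ≠ 1 := by
    rw [rootHom_apply, ZMod.val_one, pow_one]
    intro h
    exact hζ.ne_one hp.one_lt (by rw [h, Units.val_one])
  refine ⟨fun k => ?_, fun k => ?_, fun k => ?_⟩
  · rw [← symPhi_coeff_coeffMap (cpEval p (rootHom p ζ hζp)) (rFo p (cpZ p)) (rFo p ζ)
      (coeffMap_cpEval_rFo p ζ hζp) k]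
    exact intCoeffs_of_fixed p _ hχ _
      (fun a => symPhi_coeff_fixed _ (opMul p a) _ (coeffMap_cpAut_rFo p a) k)
  · rw [← symPhi_coeff_coeffMap (cpEval p (rootHom p ζ hζp)) (uFo p (cpZ p)) (uFo p ζ)
      (coeffMap_cpEval_uFo p ζ hζp) k]
    exact intCoeffs_of_fixed p _ hχ _
      (fun a => symPhi_coeff_fixed _ (opMul p a) _ (coeffMap_cpAut_uFo p a) k)
  · rw [← symL_coeff_coeffMap (cpEval p (rootHom p ζ hζp)) (rFo p (cpZ p)) (uFo p (cpZ p))
      (rFo p ζ) (uFo p ζ) (coeffMap_cpEval_rFo p ζ hζp) (coeffMap_cpEval_uFo p ζ hζp) k]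
    exact intCoeffs_of_fixed p _ hχ _
      (fun a => symL_coeff_fixed _ (opMul p a) _ _ (coeffMap_cpAut_rFo p a)
        (coeffMap_cpAut_uFo p a) k)

end Fermat.Agent.H44

end
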