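/-
IG-M (P-IGUSA, S28): independence of the choice of the primitive `p`-th root of unity.
-/
import Fermat.Agent.H44.IgM.Integrality

set_option autoImplicit false

noncomputable section

open Polynomial ModularCurve

namespace Fermat.Agent.H44

open Fermat.Agent.H17 Fermat.Agent.H27 Fermat.Agent.H67

theorem zetaC_isPrimitiveRoot (p : ℕ) [NeZero p] : IsPrimitiveRoot ((zetaC p : ℂˣ) : ℂ) p := by
  show IsPrimitiveRoot (Complex.exp (2 * Real.pi * Complex.I / p)) p
  exact Complex.isPrimitiveRoot_exp p (NeZero.ne p)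

theorem pow_val_eq_of_pow_eq_one {M : Type*} [Monoid M] (p : ℕ) [NeZero p] (ξ : M)
    (hξ : ξ ^ p = 1) (n : ℕ) : ξ ^ ((n : ZMod p)).val = ξ ^ n := by
  rw [ZMod.val_natCast]
  exact (pow_eq_pow_mod n hξ).symm

/-- **Reindexing**: for any primitive `p`-th root of unity `ζ` the families `rFo p ζ`, `uFo p ζ`
are permutations (fixing `∞`) of the families for the standard root `exp (2 π i / p)`. -/
theorem symPhi_rFo_eq (p : ℕ) [NeZero p] (hp : p.Prime) (ζ : ℂˣ)
    (hζ : IsPrimitiveRoot (ζ : ℂ) p) :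
    ∃ σ : Equiv.Perm (OnePoint (ZMod p)), σ OnePoint.infty = OnePoint.infty ∧
      ∀ x, rFo p ζ x = rFo p (zetaC p) (σ x) ∧ uFo p ζ x = uFo p (zetaC p) (σ x) := by
  have : Fact p.Prime := ⟨hp⟩
  have h0 := zetaC_isPrimitiveRoot p
  have h0u : IsPrimitiveRoot (zetaC p) p := IsPrimitiveRoot.coe_units_iff.mp h0
  have hζu : IsPrimitiveRoot ζ p := IsPrimitiveRoot.coe_units_iff.mp hζ
  obtain ⟨i, -, hi'⟩ := h0.eq_pow_of_pow_eq_one hζ.pow_eq_one
  have hi : (zetaC p) ^ i = ζ := by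
    apply Units.ext
    rw [Units.val_pow_eq_pow_val]
    exact hi'
  have h0p : (zetaC p) ^ p = 1 := h0u.pow_eq_one
  have hia : (i : ZMod p) ≠ 0 := by
    intro h
    rw [ZMod.natCast_eq_zero_iff] at h
    obtain ⟨c, rfl⟩ := h
    rw [pow_mul, h0p, one_pow] at hi
    exact hζu.ne_one hp.one_lt hi.symm
  have key : ∀ b : ZMod p, ζ ^ b.val = (zetaC p) ^ (((i : ZMod p)) * b).val := by
    intro b
    rw [← hi, ← pow_mul]
    have e : ((i : ZMod p)) * b = ((i * b.val : ℕ) : ZMod p) := by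
      rw [Nat.cast_mul, ZMod.natCast_zmod_val]
    rw [e, pow_val_eq_of_pow_eq_one p _ h0p]
  refine ⟨opMul p (Units.mk0 (i : ZMod p) hia), opMul_infty p _, fun x => ?_⟩
  induction x using OnePoint.rec with
  | infty => exact ⟨rfl, rfl⟩
  | coe b =>
    rw [opMul_some, Units.val_mk0, rFo_some, rFo_some, uFo_some, uFo_some, key b]
    exact ⟨rfl, rfl⟩

end Fermat.Agent.H44

end
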