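import Mathlib
import Fermat.Agent.H17.EvalInst
import Fermat.Agent.H42.HeckePermT1
import Fermat.Agent.H57.HeckeFormal
import Fermat.Agent.H44.IgM.Integrality
import Fermat.Agent.H44.IgM.Reindex

/-!
# IG-M [T4]: final assembly — the Hecke data exist over `ℂ`

Seat `helper44` (project P-IGUSA, IG-M, part T4).

* `hasHeckeData_complex_of` : the assembly from the three evaluation hypotheses,
* `hasHeckeData_complex : Fermat.Agent.H27.HasHeckeData ℂ` (no hypotheses).

Ingredients: the modularity principle `Fermat.Agent.H17.exists_intPoly_of_isEval'`, the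
permutation statement `Fermat.Agent.H42.exists_perm` (T1), the formal integrality and the
reindexing of this seat (T3), and the packaging `Fermat.Agent.H57.nonempty_heckeDataOver_of_poly`.
-/

set_option autoImplicit false

noncomputable section

open Polynomial ModularCurve UpperHalfPlane Fermat.Agent.H27 Fermat.Agent.H17
open scoped MatrixGroups

namespace Fermat.Agent.H44

/-! ### identification of the two presentations of the families -/

theorem rFam_eq_rFo (p : ℕ) [NeZero p] (ζ : ℂˣ) : Fermat.Agent.H57.rFam p ζ = rFo p ζ := by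
  funext x
  induction x using OnePoint.rec with
  | infty => rfl
  | coe b => rfl

theorem uFam_eq_uFo (p : ℕ) [NeZero p] (ζ : ℂˣ) (hζ : ζ ^ p = 1) :
    Fermat.Agent.H57.uFam p ζ = uFo p ζ := by
  funext x
  induction x using OnePoint.rec with
  | infty => rfl
  | coe b => exact Fermat.Agent.H57.uFam_coe p ζ hζ b

theorem phiS_eq_symPhi {L : Type*} [CommRing L] {ι : Type*} [Fintype ι] (r : ι → L) :
    Fermat.Agent.H57.phiS r = symPhi r := rfl

theorem lamS_eq_symL {L : Type*} [CommRing L] {ι : Type*} [Fintype ι] [inst : DecidableEq ι]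
    (r u : ι → L) : Fermat.Agent.H57.lamS r u = symL r u := by
  have h : inst = fun a b => Classical.propDecidable (a = b) := Subsingleton.elim _ _
  subst h
  rfl

/-! ### `SL(2, ℤ)`-invariance of the coefficients of the symmetric polynomials -/

theorem symPhi_rAn_smul (p : ℕ) [Fact p.Prime] (γ : SL(2, ℤ)) (τ : ℍ) :
    symPhi (fun x => rAn p x (γ • τ)) = symPhi (fun x => rAn p x τ) := by
  obtain ⟨σ, hσ⟩ := Fermat.Agent.H42.exists_perm p γ
  have h : (fun x => rAn p x (γ • τ)) = fun x => (fun y => rAn p y τ) (σ x) := by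
    funext x
    exact (hσ x τ).1
  rw [h]
  exact symPhi_comp_equiv σ (fun y => rAn p y τ)

theorem symPhi_uAn_smul (p : ℕ) [Fact p.Prime] (γ : SL(2, ℤ)) (τ : ℍ) :
    symPhi (fun x => uAn p x (γ • τ)) = symPhi (fun x => uAn p x τ) := by
  obtain ⟨σ, hσ⟩ := Fermat.Agent.H42.exists_perm p γ
  have h : (fun x => uAn p x (γ • τ)) = fun x => (fun y => uAn p y τ) (σ x) := by
    funext x
    exact (hσ x τ).2
  rw [h]
  exact symPhi_comp_equiv σ (fun y => uAn p y τ)

theorem symL_rAn_uAn_smul (p : ℕ) [Fact p.Prime] (γ : SL(2, ℤ)) (τ : ℍ) :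
    symL (fun x => rAn p x (γ • τ)) (fun x => uAn p x (γ • τ)) =
      symL (fun x => rAn p x τ) (fun x => uAn p x τ) := by
  obtain ⟨σ, hσ⟩ := Fermat.Agent.H42.exists_perm p γ
  have h1 : (fun x => rAn p x (γ • τ)) = fun x => (fun y => rAn p y τ) (σ x) := by
    funext x
    exact (hσ x τ).1
  have h2 : (fun x => uAn p x (γ • τ)) = fun x => (fun y => uAn p y τ) (σ x) := by
    funext x
    exact (hσ x τ).2
  rw [h1, h2]
  exact symL_comp_equiv σ (fun y => rAn p y τ) (fun y => uAn p y τ)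

/-! ### reduction to the standard root of unity -/

theorem symPhi_rFo_eq_std (p : ℕ) [NeZero p] (hp : p.Prime) (ζ : ℂˣ)
    (hζ : IsPrimitiveRoot (ζ : ℂ) p) :
    symPhi (rFo p ζ) = symPhi (rFo p (zetaC p)) ∧
      symPhi (uFo p ζ) = symPhi (uFo p (zetaC p)) ∧
      symL (rFo p ζ) (uFo p ζ) = symL (rFo p (zetaC p)) (uFo p (zetaC p)) := by
  obtain ⟨σ, -, hσ⟩ := symPhi_rFo_eq p hp ζ hζ
  have h1 : rFo p ζ = fun x => rFo p (zetaC p) (σ x) := by
    funext x
    exact (hσ x).1
  have h2 : uFo p ζ = fun x => uFo p (zetaC p) (σ x) := by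
    funext x
    exact (hσ x).2
  refine ⟨?_, ?_, ?_⟩
  · rw [h1]
    exact symPhi_comp_equiv σ (rFo p (zetaC p))
  · rw [h2]
    exact symPhi_comp_equiv σ (uFo p (zetaC p))
  · rw [h1, h2]
    exact symL_comp_equiv σ (rFo p (zetaC p)) (uFo p (zetaC p))

/-! ### the coefficients are polynomials in `j(t^p)` -/

theorem exists_poly_of_intPoly (p : ℕ) [NeZero p] {c : LaurentSeries ℂ}
    (h : ∃ P : Polynomial ℤ, c = evalAt (baseS ℂ p) P) :
    ∃ P : ℂ[X], c = qExpand ℂ p (aeval (jqModC ℂ) P) := by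
  obtain ⟨P, hP⟩ := h
  exact ⟨P.map (Int.castRingHom ℂ), by rw [hP, Fermat.Agent.H57.evalAt_baseS_eq]⟩

open Classical in
/-- **IG-M [T4]**, conditional form (the exact statement requested by the IG-M lead). -/
theorem hasHeckeData_complex_of
    (hbase : ∀ (p : ℕ) [NeZero p], IsEval p jFun (baseS ℂ p))
    (hr : ∀ (p : ℕ) [NeZero p] (x : OnePoint (ZMod p)), IsEval p (rAn p x) (rFo p (zetaC p) x))
    (hu : ∀ (p : ℕ) [NeZero p] (x : OnePoint (ZMod p)), IsEval p (uAn p x) (uFo p (zetaC p) x)) :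
    HasHeckeData ℂ := by
  intro p _ hp ζ hζ
  have hfact : Fact p.Prime := ⟨hp⟩
  have hζp : ζ ^ p = 1 := by
    apply Units.ext
    rw [Units.val_pow_eq_pow_val, hζ.pow_eq_one, Units.val_one]
  obtain ⟨hint1, hint2, hint3⟩ := formal_integrality p hp (zetaC p) (zetaC_isPrimitiveRoot p)
  obtain ⟨e1, e2, e3⟩ := symPhi_rFo_eq_std p hp ζ hζ
  refine Fermat.Agent.H57.nonempty_heckeDataOver_of_poly p hp ζ hζ (fun k => ?_) (fun k => ?_)
    (fun k => ?_)
  · rw [rFam_eq_rFo, phiS_eq_symPhi, e1]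
    refine exists_poly_of_intPoly p ?_
    refine exists_intPoly_of_isEval' p (hbase p)
      (isEval_symPhi_coeff (fun x => rAn p x) (rFo p (zetaC p)) (hr p) k) (fun γ τ => ?_)
      (hint1 k)
    show (symPhi (fun x => rAn p x (γ • τ))).coeff k = (symPhi (fun x => rAn p x τ)).coeff k
    rw [symPhi_rAn_smul]
  · rw [uFam_eq_uFo p ζ hζp, phiS_eq_symPhi, e2]
    refine exists_poly_of_intPoly p ?_
    refine exists_intPoly_of_isEval' p (hbase p)
      (isEval_symPhi_coeff (fun x => uAn p x) (uFo p (zetaC p)) (hu p) k) (fun γ τ => ?_)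
      (hint2 k)
    show (symPhi (fun x => uAn p x (γ • τ))).coeff k = (symPhi (fun x => uAn p x τ)).coeff k
    rw [symPhi_uAn_smul]
  · rw [rFam_eq_rFo, uFam_eq_uFo p ζ hζp, lamS_eq_symL, e3]
    refine exists_poly_of_intPoly p ?_
    refine exists_intPoly_of_isEval' p (hbase p)
      (isEval_symL_coeff (fun x => rAn p x) (fun x => uAn p x) (rFo p (zetaC p))
        (uFo p (zetaC p)) (hr p) (hu p) k) (fun γ τ => ?_) (hint3 k)
    show (symL (fun x => rAn p x (γ • τ)) (fun x => uAn p x (γ • τ))).coeff k =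
      (symL (fun x => rAn p x τ) (fun x => uAn p x τ)).coeff k
    rw [symL_rAn_uAn_smul]

/-- **IG-M, final theorem**: the Hecke data exist over `ℂ`. -/
theorem hasHeckeData_complex : HasHeckeData ℂ :=
  hasHeckeData_complex_of (fun p _ => isEval_base p) (fun p _ x => isEval_rAn p x)
    (fun p _ x => isEval_uAn p x)

end Fermat.Agent.H44
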